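import Fermat.Agent.Tverberg.Colorful
import Mathlib.LinearAlgebra.Dimension.Constructions

/-!
# Tverberg's theorem

More than `(r - 1) (d + 1)` points in a `d`-dimensional space split into `r` parts whose convex
hulls meet (Tverberg, by the tensor trick of Sarkaria); hence centrepoints exist.
-/

set_option autoImplicit false

noncomputable section

open Set Module Finset

namespace FA.Tverberg

variable {E : Type*} [AddCommGroup E] [Module ℝ E] [FiniteDimensional ℝ E]
  {κ : Type*} [Fintype κ]

/-- Tensoring with the `m + 1` vectors `e₁, …, eₘ, -(e₁ + ⋯ + eₘ)`. -/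
def lift (m : ℕ) : Fin (m + 1) → E × ℝ → Fin m → E × ℝ :=
  Fin.lastCases (fun y _ => -y) fun i y => Pi.single i y

omit [Module ℝ E] [FiniteDimensional ℝ E] in
theorem sum_lift (m : ℕ) (y : E × ℝ) : ∑ j, lift m j y = 0 := by
  rw [Fin.sum_univ_castSucc]
  simp only [lift, Fin.lastCases_castSucc, Fin.lastCases_last]
  rw [Finset.univ_sum_single (fun _ => y)]
  exact add_neg_cancel fun _ => y

/-- **Tverberg's theorem.** -/
theorem exists_partition (r : ℕ) (hr : 0 < r) (p : κ → E)
    (hκ : (r - 1) * (finrank ℝ E + 1) < Fintype.card κ) :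
    ∃ (g : κ → Fin r) (x : E), ∀ j, x ∈ convexHull ℝ (p '' {a | g a = j}) := by
  classical
  obtain ⟨m, rfl⟩ : ∃ m, r = m + 1 := ⟨r - 1, by omega⟩
  let q : κ → E × ℝ := fun a => (p a, 1)
  have hdim : finrank ℝ (Fin m → E × ℝ) < Fintype.card κ := by
    rw [finrank_pi_fintype, Finset.sum_const, Finset.card_univ, Fintype.card_fin, smul_eq_mul,
      finrank_prod, finrank_self]
    simpa using hκ
  obtain ⟨f, hf, hf0⟩ := colorful hdim (fun a => range fun j => lift m j (q a)) 0 fun a => by
    have : ∑ j : Fin (m + 1), (1 / (m + 1 : ℝ)) • lift m j (q a) ∈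
        convexHull ℝ (range fun j => lift m j (q a)) :=
      (convex_convexHull ℝ _).sum_mem (fun _ _ => by positivity)
        (by simp; field_simp) fun j _ => subset_convexHull ℝ _ ⟨j, rfl⟩
    rwa [← Finset.smul_sum, sum_lift, smul_zero] at this
  choose g hg using hf
  obtain ⟨w, hw0, hw1, hw⟩ := exists_weights hf0
  simp only [← hg] at hw
  let Q : Fin (m + 1) → E × ℝ := fun j => ∑ a ∈ univ.filter (g · = j), w a • q a
  have hQ : ∀ i : Fin m, Q i.castSucc = Q (Fin.last m) := by
    intro i
    have h := congrFun hw i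
    simp only [Finset.sum_apply, Pi.smul_apply, Pi.zero_apply] at h
    have e : ∀ a, w a • lift m (g a) (q a) i = (if g a = i.castSucc then w a • q a else 0) -
        (if g a = Fin.last m then w a • q a else 0) := by
      intro a
      cases g a using Fin.lastCases with
      | last =>
        simp only [lift, Fin.lastCases_last]
        rw [if_neg (Fin.castSucc_ne_last i).symm, if_true, zero_sub, smul_neg]
      | cast k =>
        simp only [lift, Fin.lastCases_castSucc]
        rw [if_neg (Fin.castSucc_ne_last k), sub_zero]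
        rcases eq_or_ne k i with rfl | hki
        · simp
        · simp [hki, hki.symm]
    rw [Finset.sum_congr rfl fun a _ => e a, Finset.sum_sub_distrib, sub_eq_zero,
      ← Finset.sum_filter, ← Finset.sum_filter] at h
    exact h
  have hQall : ∀ j, Q j = Q (Fin.last m) := Fin.lastCases rfl hQ
  have hQ2 : ∀ j, (Q j).2 = ∑ a ∈ univ.filter (g · = j), w a := fun j => by
    simp [Q, q, Prod.snd_sum]
  set c := (Q (Fin.last m)).2 with hc
  have hcpos : 0 < c := by
    have h : ∑ j : Fin (m + 1), (Q j).2 = 1 := by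
      simp only [hQ2]
      rw [Finset.sum_fiberwise, hw1]
    simp only [hQall, Finset.sum_const, Finset.card_univ, Fintype.card_fin, nsmul_eq_mul,
      ← hc] at h
    by_contra hle
    nlinarith [show (0 : ℝ) ≤ ((m + 1 : ℕ) : ℝ) from Nat.cast_nonneg _]
  refine ⟨g, c⁻¹ • (Q (Fin.last m)).1, fun j => ?_⟩
  have hj1 : (Q (Fin.last m)).1 = ∑ a ∈ univ.filter (g · = j), w a • p a := by
    rw [← hQall j]
    simp [Q, q, Prod.fst_sum]
  have hj2 : c = ∑ a ∈ univ.filter (g · = j), w a := by rw [hc, ← hQall j, hQ2]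
  rw [hj1, hj2]
  exact Finset.centerMass_mem_convexHull _ (fun a _ => hw0 a) (hj2 ▸ hcpos)
    fun a ha => ⟨a, (Finset.mem_filter.1 ha).2, rfl⟩

/-- **Centrepoint theorem.** -/
theorem exists_centerpoint (p : κ → E) :
    ∃ x : E, ∀ l : E →ₗ[ℝ] ℝ,
      Fintype.card κ ≤ (finrank ℝ E + 1) * #(univ.filter fun a => l x ≤ l (p a)) := by
  classical
  rcases Nat.eq_zero_or_pos (Fintype.card κ) with h0 | hpos
  · exact ⟨0, fun l => by omega⟩
  set n := Fintype.card κ
  set r := (n - 1) / (finrank ℝ E + 1) + 1 with hr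
  have hκ : (r - 1) * (finrank ℝ E + 1) < n := by
    have := Nat.div_mul_le_self (n - 1) (finrank ℝ E + 1)
    simp only [hr, Nat.add_sub_cancel]
    omega
  obtain ⟨g, x, hx⟩ := exists_partition r (Nat.succ_pos _) p hκ
  refine ⟨x, fun l => ?_⟩
  have hcard : r ≤ #(univ.filter fun a => l x ≤ l (p a)) := by
    have hex : ∀ j, ∃ a, g a = j ∧ l x ≤ l (p a) := fun j => by
      by_contra! hlt
      have hsub : convexHull ℝ (p '' {a | g a = j}) ⊆ {y | l y < l x} :=
        convexHull_min (fun _ ⟨a, ha, e⟩ => e ▸ hlt a ha)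
          (convex_halfSpace_lt l.isLinear (l x))
      exact lt_irrefl (l x) (hsub (hx j))
    choose a ha hal using hex
    simpa using Finset.card_le_card_of_injOn a (s := univ) (fun j _ => by simp [hal])
      (fun i _ j _ h => by simpa [ha] using congrArg g h)
  refine le_trans ?_ (Nat.mul_le_mul_left _ hcard)
  have := Nat.lt_mul_div_succ (n - 1) (Nat.succ_pos (finrank ℝ E))
  simp only [hr, Nat.succ_eq_add_one] at *
  omega

end FA.Tverberg

end
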