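import Mathlib.Analysis.Convex.Caratheodory
import Mathlib.Analysis.Convex.Topology
import Mathlib.Analysis.InnerProductSpace.PiL2
import Mathlib.LinearAlgebra.AffineSpace.FiniteDimensional
import Mathlib.Tactic

/-!
# The colourful Carathéodory theorem

If a point lies in the convex hull of each of more than `d` sets in a `d`-dimensional space,
then it lies in the convex hull of a choice of one point from each set (Bárány).
-/

set_option autoImplicit false

noncomputable section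

open Set Module
open scoped InnerProductSpace

namespace FA.Tverberg

section Weights

variable {E : Type*} [AddCommGroup E] [Module ℝ E] {ι : Type*} [Fintype ι]

/-- Weights for a point in the hull of finitely many points. -/
theorem exists_weights {f : ι → E} {x : E} (hx : x ∈ convexHull ℝ (range f)) :
    ∃ w : ι → ℝ, (∀ i, 0 ≤ w i) ∧ ∑ i, w i = 1 ∧ ∑ i, w i • f i = x := by
  classical
  have hsub : convexHull ℝ (range f) ⊆
      (fun w : ι → ℝ => ∑ i, w i • f i) '' stdSimplex ℝ ι := by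
    refine convexHull_min ?_ ?_
    · rintro _ ⟨i, rfl⟩
      exact ⟨Pi.single i 1, single_mem_stdSimplex ℝ i, by simp [Pi.single_apply, ite_smul]⟩
    · exact (convex_stdSimplex ℝ ι).is_linear_image
        ⟨fun u v => by simp [add_smul, Finset.sum_add_distrib],
          fun c u => by simp [mul_smul, Finset.smul_sum]⟩
  obtain ⟨w, hw, hwx⟩ := hsub hx
  exact ⟨w, hw.1, hw.2, hwx⟩

end Weights

section Inner

variable {E : Type*} [NormedAddCommGroup E] [InnerProductSpace ℝ E]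

/-- The nearest point of a convex set to the origin. -/
theorem inner_ge_of_nearest {K : Set E} (hK : Convex ℝ K) {z : E} (hz : z ∈ K)
    (hmin : ∀ y ∈ K, ‖z‖ ≤ ‖y‖) {y : E} (hy : y ∈ K) : ‖z‖ ^ 2 ≤ ⟪z, y⟫_ℝ := by
  have key : ∀ t : ℝ, 0 < t → t ≤ 1 → 0 ≤ 2 * ⟪z, y - z⟫_ℝ + t * ‖y - z‖ ^ 2 := by
    intro t ht ht1
    have hmem : z + t • (y - z) ∈ K := hK.add_smul_sub_mem hz hy ⟨ht.le, ht1⟩
    have h := pow_le_pow_left₀ (norm_nonneg z) (hmin _ hmem) 2
    rw [norm_add_sq_real, real_inner_smul_right, norm_smul, Real.norm_eq_abs, mul_pow,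
      sq_abs] at h
    refine nonneg_of_mul_nonneg_right ?_ ht
    linarith [show t * (2 * ⟪z, y - z⟫_ℝ + t * ‖y - z‖ ^ 2) =
      2 * (t * ⟪z, y - z⟫_ℝ) + t ^ 2 * ‖y - z‖ ^ 2 by ring]
  have h0 : 0 ≤ ⟪z, y - z⟫_ℝ := by
    by_contra hneg
    rcases eq_or_lt_of_le (sq_nonneg ‖y - z‖) with hA | hA
    · have := key 1 one_pos le_rfl
      rw [← hA] at this
      linarith
    · set t := min 1 (-⟪z, y - z⟫_ℝ / ‖y - z‖ ^ 2) with htdef
      have ht : 0 < t := lt_min one_pos (div_pos (by linarith) hA)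
      have h2 : t * ‖y - z‖ ^ 2 ≤ -⟪z, y - z⟫_ℝ :=
        (le_div_iff₀ hA).1 (min_le_right _ _)
      have := key t ht (min_le_left _ _)
      linarith
  rw [inner_sub_right, real_inner_self_eq_norm_sq] at h0
  linarith

variable [FiniteDimensional ℝ E] {ι : Type*} [Fintype ι]

/-- A hyperplane off the origin makes do with `d` of the points. -/
theorem exists_unused (hι : finrank ℝ E < Fintype.card ι) (f : ι → E) {z : E} (hz0 : z ≠ 0)
    (hz : z ∈ convexHull ℝ (range f)) (hge : ∀ i, ‖z‖ ^ 2 ≤ ⟪z, f i⟫_ℝ) :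
    ∃ j, z ∈ convexHull ℝ (f '' {j}ᶜ) := by
  classical
  obtain ⟨w, hw0, hw1, hwz⟩ := exists_weights hz
  have hzero : ∀ i, w i * (⟪z, f i⟫_ℝ - ‖z‖ ^ 2) = 0 := by
    have hs : ∑ i, w i * (⟪z, f i⟫_ℝ - ‖z‖ ^ 2) = 0 := by
      have := congrArg (fun u => ⟪z, u⟫_ℝ) hwz
      simp only [inner_sum, real_inner_smul_right, real_inner_self_eq_norm_sq] at this
      simp only [mul_sub, Finset.sum_sub_distrib, this, ← Finset.sum_mul, hw1, one_mul, sub_self]
    exact fun i => (Finset.sum_eq_zero_iff_of_nonneg fun i _ =>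
      mul_nonneg (hw0 i) (sub_nonneg.2 (hge i))).1 hs i (Finset.mem_univ i)
  let I : Set ι := {i | w i ≠ 0}
  have hzI : z ∈ convexHull ℝ (f '' I) := by
    rw [← hwz, ← Finset.sum_filter_of_ne (p := fun i => w i ≠ 0) fun i _ h hc => h (by simp [hc])]
    refine (convex_convexHull ℝ _).sum_mem (fun i _ => hw0 i) ?_
      fun i hi => subset_convexHull ℝ _ ⟨i, (Finset.mem_filter.1 hi).2, rfl⟩
    rw [Finset.sum_filter_ne_zero, hw1]
  rw [convexHull_eq_union] at hzI
  simp only [mem_iUnion] at hzI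
  obtain ⟨T, hTI, hind, hzT⟩ := hzI
  have : Nonempty T := by
    have : (T : Set E).Nonempty := convexHull_nonempty_iff.1 ⟨z, hzT⟩
    obtain ⟨x, hx⟩ := this
    exact ⟨⟨x, hx⟩⟩
  have hT : T.card ≤ finrank ℝ E := by
    have h1 : vectorSpan ℝ (range ((↑) : T → E)) ≤ (ℝ ∙ z)ᗮ := by
      rw [vectorSpan_def, Submodule.span_le]
      rintro _ ⟨_, ⟨⟨a, ha⟩, rfl⟩, _, ⟨⟨b, hb⟩, rfl⟩, rfl⟩
      obtain ⟨i, hi, rfl⟩ := hTI ha
      obtain ⟨j, hj, rfl⟩ := hTI hb
      have ei : ⟪z, f i⟫_ℝ = ‖z‖ ^ 2 := sub_eq_zero.1 ((mul_eq_zero.1 (hzero i)).resolve_left hi)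
      have ej : ⟪z, f j⟫_ℝ = ‖z‖ ^ 2 := sub_eq_zero.1 ((mul_eq_zero.1 (hzero j)).resolve_left hj)
      rw [SetLike.mem_coe, Submodule.mem_orthogonal_singleton_iff_inner_right]
      simp only [vsub_eq_sub, inner_sub_right, ei, ej, sub_self]
    have h2 := Submodule.finrank_add_finrank_orthogonal (ℝ ∙ z)
    rw [finrank_span_singleton hz0] at h2
    have h3 := Submodule.finrank_mono h1
    have h4 := hind.finrank_vectorSpan_add_one
    rw [Fintype.card_coe] at h4
    omega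
  have : Nonempty ι := Fintype.card_pos_iff.1 (by omega)
  have hTI' : ∀ a ∈ T, ∃ i, f i = a := fun a ha => (hTI ha).imp fun i hi => hi.2
  choose! g hg using hTI'
  obtain ⟨j, -, hj⟩ := Finset.exists_mem_notMem_of_card_lt_card
    (s := T.image g) (t := (Finset.univ : Finset ι))
    (Finset.card_image_le.trans_lt (hT.trans_lt hι))
  refine ⟨j, convexHull_mono ?_ hzT⟩
  intro x hx
  refine ⟨g x, fun hc => hj ?_, hg x hx⟩
  rw [← (show g x = j from hc)]
  exact Finset.mem_image_of_mem g hx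

/-- **Colourful Carathéodory theorem**, at the origin of an inner product space. -/
theorem colorful_zero (hι : finrank ℝ E < Fintype.card ι) (S : ι → Set E)
    (h : ∀ i, (0 : E) ∈ convexHull ℝ (S i)) :
    ∃ f : ι → E, (∀ i, f i ∈ S i) ∧ (0 : E) ∈ convexHull ℝ (range f) := by
  classical
  have hfin : ∀ i, ∃ T : Finset E, ↑T ⊆ S i ∧ (0 : E) ∈ convexHull ℝ (T : Set E) := fun i => by
    have := h i
    rw [convexHull_eq_union_convexHull_finite_subsets (S i)] at this
    simpa only [mem_iUnion, exists_prop] using this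
  choose T hTS hT using hfin
  have : Nonempty ι := Fintype.card_pos_iff.1 (by omega)
  have hne : ∀ i, (T i).Nonempty := fun i =>
    Finset.coe_nonempty.1 (convexHull_nonempty_iff.1 ⟨0, hT i⟩)
  have : ∀ i, Nonempty (T i) := fun i => (hne i).coe_sort
  let K : ((i : ι) → T i) → Set E := fun c => convexHull ℝ (range fun i => (c i : E))
  have hmin : ∀ c, ∃ z ∈ K c, ∀ y ∈ K c, ‖z‖ ≤ ‖y‖ := fun c => by
    obtain ⟨z, hz, hz'⟩ := ((Set.finite_range fun i => (c i : E)).isCompact_convexHull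
      ℝ).exists_isMinOn (convexHull_nonempty_iff.2 (range_nonempty _))
      continuous_norm.continuousOn
    exact ⟨z, hz, fun y hy => hz' hy⟩
  choose z hz hzmin using hmin
  obtain ⟨c, hc⟩ := Finite.exists_min fun c => ‖z c‖
  refine ⟨fun i => c i, fun i => hTS i (c i).2, ?_⟩
  suffices h0 : z c = 0 by simpa only [h0] using hz c
  by_contra h0
  have hge : ∀ y ∈ K c, ‖z c‖ ^ 2 ≤ ⟪z c, y⟫_ℝ := fun y hy =>
    inner_ge_of_nearest (convex_convexHull ℝ _) (hz c) (hzmin c) hy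
  obtain ⟨j, hj⟩ := exists_unused hι _ h0 (hz c)
    fun i => hge _ (subset_convexHull ℝ _ ⟨i, rfl⟩)
  obtain ⟨x, hx, hxle⟩ : ∃ x ∈ T j, ⟪z c, x⟫_ℝ ≤ 0 := by
    by_contra! hpos
    have hsub : convexHull ℝ (T j : Set E) ⊆ {x | 0 < ⟪z c, x⟫_ℝ} :=
      convexHull_min hpos (convex_halfSpace_gt (innerₗ E (z c)).isLinear 0)
    simpa using hsub (hT j)
  let c' := Function.update c j ⟨x, hx⟩
  have hzc' : z c ∈ K c' := by
    refine convexHull_mono ?_ hj
    rintro _ ⟨i, hi, rfl⟩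
    exact ⟨i, by simp [c', Function.update_of_ne (show i ≠ j from hi)]⟩
  have hxc' : x ∈ K c' := subset_convexHull ℝ _ ⟨j, by simp [c']⟩
  have heq : ∀ y ∈ K c', ‖z c‖ ≤ ‖y‖ := fun y hy => (hc c').trans (hzmin c' y hy)
  have := inner_ge_of_nearest (convex_convexHull ℝ _) hzc' heq hxc'
  have : 0 < ‖z c‖ ^ 2 := pow_pos (norm_pos_iff.2 h0) 2
  linarith

end Inner

/-- **Colourful Carathéodory theorem.** -/
theorem colorful {E : Type*} [AddCommGroup E] [Module ℝ E] [FiniteDimensional ℝ E] {ι : Type*}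
    [Fintype ι] (hι : finrank ℝ E < Fintype.card ι) (S : ι → Set E) (x : E)
    (h : ∀ i, x ∈ convexHull ℝ (S i)) :
    ∃ f : ι → E, (∀ i, f i ∈ S i) ∧ x ∈ convexHull ℝ (range f) := by
  let L : E ≃ₗ[ℝ] EuclideanSpace ℝ (Fin (finrank ℝ E)) :=
    (finBasis ℝ E).equivFun.trans (WithLp.linearEquiv 2 ℝ _).symm
  let A : E →ᵃ[ℝ] EuclideanSpace ℝ (Fin (finrank ℝ E)) :=
    L.toLinearMap.toAffineMap - AffineMap.const ℝ E (L x)
  have hA : ∀ y, A y = L y - L x := fun y => rfl
  have hA0 : A x = 0 := by rw [hA, sub_self]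
  have hinj : Function.Injective A := fun a b hab => by simpa [hA] using hab
  obtain ⟨f, hf, hf0⟩ := colorful_zero (by rwa [finrank_euclideanSpace_fin]) (fun i => A '' S i)
    fun i => by rw [← A.image_convexHull]; exact ⟨x, h i, hA0⟩
  choose g hg hgf using hf
  refine ⟨g, hg, ?_⟩
  rw [show f = A ∘ g from funext fun i => (hgf i).symm, range_comp, ← A.image_convexHull] at hf0
  obtain ⟨y, hy, hy0⟩ := hf0
  rwa [← hinj (hy0.trans hA0.symm)]

end FA.Tverberg

end
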